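import Fermat.Agent.Lib.Frob.Interfaces
import Fermat.Agent.Lib.Red.H290.RedHom

/-!
# Piece A1 of row S52: `ReductionData` (helper290)

For `W : WeierstrassCurve ℤ`, a prime `ℓ ∤ Δ(W)`, a valuation subring `A` of `ℚ̄` over `ℓ` and a
Frobenius element `σ` at `A`: the reduction map of `Fermat.Agent.Lib.Red.H290` with
`k = κ_A` (the residue field of `A`) restricted to the `n`-torsion (`ℓ ∤ n`) is additive, injective
and intertwines `σ` with the `ℓ`-power Frobenius.
-/

set_option autoImplicit false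
set_option linter.style.haveILetI false

open WeierstrassCurve WeierstrassCurve.Affine WeierstrassCurve.Affine.Point

namespace Fermat.Agent.Lib.Frob.A1.H290

open Fermat.Agent.Lib.Red.H290
open Fermat.Agent.Lib.Frob

variable (A : ValuationSubring Qb)

/-- The residue field of `A`. -/
abbrev Res : Type := IsLocalRing.ResidueField A

lemma rd_intCast {K : Type*} [Field K] {κ : Type*} [Field κ] {V : ValuationSubring K}
    {φ : V →+* κ} (m : ℤ) : rd V φ (m : K) = (m : κ) := by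
  rw [rd_of_mem (intCast_mem V m)]
  have : (⟨(m : K), intCast_mem V m⟩ : V) = (m : V) := rfl
  rw [this, map_intCast]

section char

variable {A} {ℓ : ℕ} [hℓ : Fact ℓ.Prime] (hA : A.LiesOverPrime ℓ)
include hA

omit hℓ in
lemma natCast_res_eq_zero : ((ℓ : ℕ) : Res A) = 0 := by
  have h1 : A.valuation ((ℓ : ℕ) : Qb) < 1 := (A.mem_nonunits_iff).mp hA
  have h2 := rd_eq_zero_of_lt (kerMax_residue A) h1
  rwa [rd_natCast] at h2

lemma charP_res : CharP (Res A) ℓ := by
  obtain ⟨p, hp⟩ := CharP.exists (Res A)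
  have hdvd : p ∣ ℓ := (CharP.cast_eq_zero_iff (Res A) p ℓ).mp (natCast_res_eq_zero hA)
  have hp1 : p ≠ 1 := CharP.char_ne_one (Res A) p
  have : p = ℓ := (Nat.prime_dvd_prime_iff_eq
    ((Nat.dvd_prime hℓ.out).mp hdvd |>.resolve_left hp1 ▸ hℓ.out) hℓ.out).mp hdvd
  exact this ▸ hp

lemma val_natCast_eq_one {n : ℕ} (hn : ¬ ℓ ∣ n) : A.valuation (n : Qb) = 1 := by
  have := charP_res hA
  have hne : ((n : ℕ) : Res A) ≠ 0 := by
    intro h0
    exact hn ((CharP.cast_eq_zero_iff (Res A) ℓ n).mp h0)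
  rw [← rd_natCast (A := A) (φ := IsLocalRing.residue A)] at hne
  exact (rd_ne_zero_iff (kerMax_residue A) (natCast_mem A n)).mp hne

end char

section curve

variable {A} {ℓ : ℕ} [Fact ℓ.Prime] [Algebra (ZMod ℓ) (Res A)]

/-- The reduction of the `ℚ̄`-curve of `W` is the base change of `W mod ℓ`. -/
lemma isRedOf_int (W : WeierstrassCurve ℤ) :
    IsRedOf A (IsLocalRing.residue A) ((W.map (Int.castRingHom ℚ))⁄Qb)
      ((W.reductionMod ℓ)⁄(Res A)) := by
  have e : ∀ m : ℤ, algebraMap ℚ Qb (Int.castRingHom ℚ m) = (m : Qb) := fun m => by simp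
  have e' : ∀ m : ℤ, algebraMap (ZMod ℓ) (Res A) (Int.castRingHom (ZMod ℓ) m) = (m : Res A) :=
    fun m => by simp
  have hm : ∀ m : ℤ, algebraMap ℚ Qb (Int.castRingHom ℚ m) ∈ A := fun m => by
    rw [e]; exact intCast_mem A m
  have hr : ∀ m : ℤ, rd A (IsLocalRing.residue A) (algebraMap ℚ Qb (Int.castRingHom ℚ m)) =
      algebraMap (ZMod ℓ) (Res A) (Int.castRingHom (ZMod ℓ) m) := fun m => by
    rw [e, e', rd_intCast]
  exact ⟨hm _, hm _, hm _, hm _, hm _, hr _, hr _, hr _, hr _, hr _⟩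

lemma Δ_red_ne_zero [CharP (Res A) ℓ] (W : WeierstrassCurve ℤ) (hgood : W.IsGoodPrimeFor ℓ) :
    ((W.reductionMod ℓ)⁄(Res A)).Δ ≠ 0 := by
  have h1 : ((W.reductionMod ℓ)⁄(Res A)).Δ =
      algebraMap (ZMod ℓ) (Res A) (Int.castRingHom (ZMod ℓ) W.Δ) := by
    show ((W.map (Int.castRingHom (ZMod ℓ))).map (algebraMap (ZMod ℓ) (Res A))).Δ = _
    rw [WeierstrassCurve.map_Δ, WeierstrassCurve.map_Δ]
  rw [h1]
  have e' : algebraMap (ZMod ℓ) (Res A) (Int.castRingHom (ZMod ℓ) W.Δ) = (W.Δ : Res A) := by simp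
  rw [e']
  intro h0
  exact hgood ((CharP.intCast_eq_zero_iff (Res A) ℓ W.Δ).mp h0)

end curve

section frob

variable {A} {ℓ : ℕ} {σ : Qb ≃ₐ[ℚ] Qb} (hσ : A.IsFrobeniusAt σ ℓ)
include hσ

lemma frob_mem {x : Qb} (hx : x ∈ A) : σ x ∈ A := by
  obtain ⟨hd, -⟩ := hσ
  exact ((⟨σ, hd⟩ : A.decompositionSubgroup ℚ) • (⟨x, hx⟩ : A)).2

lemma frob_mem_iff (x : Qb) : σ x ∈ A ↔ x ∈ A := by
  refine ⟨fun h => ?_, frob_mem hσ⟩
  obtain ⟨hd, -⟩ := hσ
  have := ((⟨σ, hd⟩ : A.decompositionSubgroup ℚ)⁻¹ • (⟨σ x, h⟩ : A)).2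
  have e : (((⟨σ, hd⟩ : A.decompositionSubgroup ℚ)⁻¹ • (⟨σ x, h⟩ : A) : A) : Qb) = x := by
    show σ⁻¹ (σ x) = x
    exact σ.symm_apply_apply x
  rwa [e] at this

lemma rd_frob {x : Qb} (hx : x ∈ A) :
    rd A (IsLocalRing.residue A) (σ x) = rd A (IsLocalRing.residue A) x ^ ℓ := by
  have hx' := frob_mem hσ hx
  obtain ⟨hd, hF⟩ := hσ
  rw [rd_of_mem hx', rd_of_mem hx, ← hF, ← IsLocalRing.ResidueField.residue_smul]
  rfl

end frob

/-- **A1.** -/
theorem reductionData : ReductionData := by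
  intro W ℓ _ hgood A σ hA hσ n hn hℓn
  letI : DecidableEq (Res A) := Classical.decEq _
  haveI : CharP (Res A) ℓ := charP_res hA
  letI : Algebra (ZMod ℓ) (Res A) := ZMod.algebra _ ℓ
  have h := isRedOf_int (A := A) (ℓ := ℓ) W
  have hφ := kerMax_residue A
  have hΔ := Δ_red_ne_zero (A := A) W hgood
  have hn1 : A.valuation (n : Qb) = 1 := val_natCast_eq_one hA hℓn
  refine ⟨Res A, inferInstance, inferInstance, inferInstance,
    (redHom h hφ hΔ).comp (Submodule.torsionBy ℤ (Pts W) n).subtype.toAddMonoidHom, ?_, ?_⟩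
  · intro P Q hPQ
    have hP : n • (P : Pts W) = 0 := by
      have := (Submodule.mem_torsionBy_iff _ _).mp P.2
      rwa [natCast_zsmul] at this
    have hQ : n • (Q : Pts W) = 0 := by
      have := (Submodule.mem_torsionBy_iff _ _).mp Q.2
      rwa [natCast_zsmul] at this
    exact Subtype.ext (eq_of_red_eq_of_nsmul h hφ hΔ n hn1 _ _ hP hQ hPQ)
  · intro P
    show red h hΔ (σ • (P : Pts W)) = frobPt ℓ (W.reductionMod ℓ) (Res A) (red h hΔ (P : Pts W))
    rcases hP : (P : Pts W) with _ | ⟨x, y, hxy⟩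
    · rfl
    · rw [WeierstrassCurve.Affine.Point.algEquiv_smul_def, Point.map_some]
      by_cases hx : x ∈ A
      · have hy : y ∈ A := y_mem_of_x_mem h hxy.1 hx
        rw [red_some_of_mem h hΔ (x := σ.toAlgHom x) (y := σ.toAlgHom y) _ (frob_mem hσ hx),
          red_some_of_mem h hΔ hxy hx]
        simp only [frobPt, Point.map_some]
        congr 1
        · refine (rd_frob hσ hx).trans ?_
          simp [FiniteField.frobeniusAlgHom, ZMod.card]
        · refine (rd_frob hσ hy).trans ?_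
          simp [FiniteField.frobeniusAlgHom, ZMod.card]
      · rw [red_some_of_not_mem h hΔ (x := σ.toAlgHom x) (y := σ.toAlgHom y) _
            (fun h' => hx ((frob_mem_iff hσ x).mp h')),
          red_some_of_not_mem h hΔ hxy hx]
        exact (_root_.map_zero _).symm

end Fermat.Agent.Lib.Frob.A1.H290
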